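/-
Multiplicative Hecke operators on Laurent series (package C of the Galois cluster; architect helper33).
Basic definitions, valid over any commutative ring `R`:
* `tw ξ`       : `∑ aₙ qⁿ ↦ ∑ aₙ ξⁿ qⁿ`
* `contract ℓ` : `∑ aₙ qⁿ ↦ ∑ a_{ℓ n} qⁿ`
* `prodTw ξ ℓ f = ∏_{b < ℓ} f(ξᵇ q)`
* `V ξ ℓ f     = ∏_{b < ℓ} f(ξᵇ q^{1/ℓ})`
* `Tm ξ ℓ f    = f(q^ℓ) ∏_{b < ℓ} f(ξᵇ q^{1/ℓ})`
-/
import Mathlib
import Fermat.Prelude.Def_ModularCurve_X0
import Fermat.Prelude.Def_ModularCurve_LaurentCoeff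

set_option autoImplicit false

namespace Fermat.Agent.Lib.MulHecke

open ModularCurve

variable {R S : Type*} [CommRing R] [CommRing S]

/-- The series `∑ aₙ ξⁿ qⁿ`. -/
noncomputable def twFun (ξ : Rˣ) (f : LaurentSeries R) : LaurentSeries R where
  coeff n := ((ξ ^ n : Rˣ) : R) * f.coeff n
  isPWO_support' := f.isPWO_support.mono (by
    intro n hn
    simp only [Function.mem_support, ne_eq] at hn
    intro h0
    exact hn (by rw [h0, mul_zero]))

@[simp] theorem twFun_coeff (ξ : Rˣ) (f : LaurentSeries R) (n : ℤ) :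
    (twFun ξ f).coeff n = ((ξ ^ n : Rˣ) : R) * f.coeff n := rfl

theorem support_twFun (ξ : Rˣ) (f : LaurentSeries R) : (twFun ξ f).support = f.support := by
  ext n
  rw [HahnSeries.mem_support, HahnSeries.mem_support, twFun_coeff]
  exact not_congr (Units.mul_right_eq_zero _)

/-- `∑ aₙ qⁿ ↦ ∑ aₙ ξⁿ qⁿ` as a ring homomorphism. -/
noncomputable def tw (ξ : Rˣ) : LaurentSeries R →+* LaurentSeries R where
  toFun := twFun ξ
  map_one' := by
    ext n
    rw [twFun_coeff, HahnSeries.coeff_one]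
    split_ifs with h
    · subst h; simp
    · simp
  map_mul' := by
    intro f g
    ext n
    rw [twFun_coeff, HahnSeries.coeff_mul, HahnSeries.coeff_mul, Finset.mul_sum]
    have hs : Finset.antidiagonal (twFun ξ f).isPWO_support (twFun ξ g).isPWO_support n
        = Finset.antidiagonal f.isPWO_support g.isPWO_support n := by
      ext ij
      simp only [Finset.mem_antidiagonal, support_twFun]
    rw [hs]
    refine Finset.sum_congr rfl ?_
    intro ij hij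
    rw [Finset.mem_antidiagonal] at hij
    rw [twFun_coeff, twFun_coeff, ← hij.2.2, zpow_add, Units.val_mul]
    ring
  map_zero' := by
    ext n
    simp
  map_add' := by
    intro f g
    ext n
    simp [mul_add]

@[simp] theorem tw_coeff (ξ : Rˣ) (f : LaurentSeries R) (n : ℤ) :
    (tw ξ f).coeff n = ((ξ ^ n : Rˣ) : R) * f.coeff n := rfl

@[simp] theorem tw_one (f : LaurentSeries R) : tw (1 : Rˣ) f = f := by
  ext n
  simp

theorem tw_tw (ξ η : Rˣ) (f : LaurentSeries R) : tw ξ (tw η f) = tw (ξ * η) f := by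
  ext n
  rw [tw_coeff, tw_coeff, tw_coeff, mul_zpow, Units.val_mul, mul_assoc]

theorem coeffMap_tw (φ : R →+* S) (ξ : Rˣ) (f : LaurentSeries R) :
    coeffMap φ (tw ξ f) = tw (Units.map (φ : R →* S) ξ) (coeffMap φ f) := by
  ext n
  rw [coeffMap_coeff, tw_coeff, tw_coeff, coeffMap_coeff, map_mul, ← map_zpow]
  rfl

/-- `f(q^m)` twisted by `ξ` is the twist of `f` by `ξ^m`, expanded. -/
theorem tw_qExpand (m : ℕ) [NeZero m] (ξ : Rˣ) (f : LaurentSeries R) :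
    tw ξ (qExpand R m f) = qExpand R m (tw (ξ ^ m) f) := by
  ext k
  by_cases hk : (m : ℤ) ∣ k
  · obtain ⟨j, rfl⟩ := hk
    rw [tw_coeff, qExpand_coeff_mul, qExpand_coeff_mul, tw_coeff, zpow_mul, zpow_natCast]
  · rw [tw_coeff, qExpand_coeff_of_not_dvd m _ hk, qExpand_coeff_of_not_dvd m _ hk, mul_zero]

theorem coeffMap_qExpand (φ : R →+* S) (m : ℕ) [NeZero m] (f : LaurentSeries R) :
    coeffMap φ (qExpand R m f) = qExpand S m (coeffMap φ f) := by
  ext k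
  by_cases hk : (m : ℤ) ∣ k
  · obtain ⟨j, rfl⟩ := hk
    rw [coeffMap_coeff, qExpand_coeff_mul, qExpand_coeff_mul, coeffMap_coeff]
  · rw [coeffMap_coeff, qExpand_coeff_of_not_dvd m _ hk, qExpand_coeff_of_not_dvd m _ hk, map_zero]

section Contract

variable (ℓ : ℕ) [NeZero ℓ]

theorem bddBelow_support_contract (f : LaurentSeries R) :
    BddBelow (Function.support fun k : ℤ => f.coeff ((ℓ : ℤ) * k)) := by
  refine ⟨min f.order 0, ?_⟩
  intro k hk
  by_contra hlt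
  rw [not_le, lt_min_iff] at hlt
  apply hk
  refine HahnSeries.coeff_eq_zero_of_lt_order ?_
  have hℓ : (1 : ℤ) ≤ (ℓ : ℤ) := by exact_mod_cast Nat.pos_of_ne_zero (NeZero.ne ℓ)
  nlinarith [hlt.1, hlt.2]

/-- `∑ aₙ qⁿ ↦ ∑ a_{ℓ n} qⁿ`. -/
noncomputable def contract : LaurentSeries R →+ LaurentSeries R where
  toFun f := HahnSeries.ofSuppBddBelow (fun k : ℤ => f.coeff ((ℓ : ℤ) * k))
    (bddBelow_support_contract ℓ f)
  map_zero' := by
    ext k
    simp
  map_add' f g := by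
    ext k
    simp

@[simp] theorem contract_coeff (f : LaurentSeries R) (k : ℤ) :
    (contract ℓ f).coeff k = f.coeff ((ℓ : ℤ) * k) := rfl

@[simp] theorem contract_qExpand (f : LaurentSeries R) : contract ℓ (qExpand R ℓ f) = f := by
  ext k
  rw [contract_coeff, qExpand_coeff_mul]

/-- `f` is a series in `q^ℓ`. -/
def SuppDvd (f : LaurentSeries R) : Prop := ∀ k : ℤ, ¬ (ℓ : ℤ) ∣ k → f.coeff k = 0

theorem suppDvd_qExpand (f : LaurentSeries R) : SuppDvd ℓ (qExpand R ℓ f) :=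
  fun _ hk => qExpand_coeff_of_not_dvd ℓ f hk

variable {ℓ}

theorem SuppDvd.qExpand_contract {f : LaurentSeries R} (hf : SuppDvd ℓ f) :
    qExpand R ℓ (contract ℓ f) = f := by
  ext k
  by_cases hk : (ℓ : ℤ) ∣ k
  · obtain ⟨j, rfl⟩ := hk
    rw [qExpand_coeff_mul, contract_coeff]
  · rw [qExpand_coeff_of_not_dvd ℓ _ hk, hf k hk]

theorem suppDvd_iff {f : LaurentSeries R} : SuppDvd ℓ f ↔ ∃ g, f = qExpand R ℓ g :=
  ⟨fun h => ⟨_, h.qExpand_contract.symm⟩, by rintro ⟨g, rfl⟩; exact suppDvd_qExpand ℓ g⟩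

theorem SuppDvd.mul {f g : LaurentSeries R} (hf : SuppDvd ℓ f) (hg : SuppDvd ℓ g) :
    SuppDvd ℓ (f * g) := by
  rw [suppDvd_iff] at hf hg ⊢
  obtain ⟨a, rfl⟩ := hf
  obtain ⟨b, rfl⟩ := hg
  exact ⟨a * b, (map_mul _ _ _).symm⟩

theorem SuppDvd.one : SuppDvd ℓ (1 : LaurentSeries R) :=
  suppDvd_iff.2 ⟨1, (map_one _).symm⟩

theorem SuppDvd.contract_mul {f g : LaurentSeries R} (hf : SuppDvd ℓ f) (hg : SuppDvd ℓ g) :
    contract ℓ (f * g) = contract ℓ f * contract ℓ g := by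
  apply qExpand_injective (R := R) ℓ
  rw [(hf.mul hg).qExpand_contract, map_mul, hf.qExpand_contract, hg.qExpand_contract]

theorem contract_one : contract ℓ (1 : LaurentSeries R) = 1 := by
  apply qExpand_injective (R := R) ℓ
  rw [SuppDvd.one.qExpand_contract, map_one]

variable (ℓ)

theorem coeffMap_contract (φ : R →+* S) (f : LaurentSeries R) :
    coeffMap φ (contract ℓ f) = contract ℓ (coeffMap φ f) := by
  ext k
  simp

end Contract

/-- `∏_{b < ℓ} f(ξᵇ q)`. -/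
noncomputable def prodTw (ξ : Rˣ) (ℓ : ℕ) (f : LaurentSeries R) : LaurentSeries R :=
  ∏ b ∈ Finset.range ℓ, tw (ξ ^ b) f

theorem prodTw_mul (ξ : Rˣ) (ℓ : ℕ) (f g : LaurentSeries R) :
    prodTw ξ ℓ (f * g) = prodTw ξ ℓ f * prodTw ξ ℓ g := by
  simp only [prodTw, map_mul, Finset.prod_mul_distrib]

@[simp] theorem prodTw_one (ξ : Rˣ) (ℓ : ℕ) : prodTw ξ ℓ (1 : LaurentSeries R) = 1 := by
  simp [prodTw]

theorem prodTw_one_left (ℓ : ℕ) (f : LaurentSeries R) : prodTw (1 : Rˣ) ℓ f = f ^ ℓ := by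
  simp [prodTw]

theorem coeffMap_prodTw (φ : R →+* S) (ξ : Rˣ) (ℓ : ℕ) (f : LaurentSeries R) :
    coeffMap φ (prodTw ξ ℓ f) = prodTw (Units.map (φ : R →* S) ξ) ℓ (coeffMap φ f) := by
  simp only [prodTw, map_prod, coeffMap_tw, map_pow]

/-- invariance of `prodTw` under `q ↦ ξ q`. -/
theorem tw_prodTw {ξ : Rˣ} {ℓ : ℕ} (hξ : ξ ^ ℓ = 1) (f : LaurentSeries R) :
    tw ξ (prodTw ξ ℓ f) = prodTw ξ ℓ f := by
  simp only [prodTw, map_prod, tw_tw, ← pow_succ']
  cases ℓ with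
  | zero => simp
  | succ m =>
    rw [Finset.prod_range_succ, Finset.prod_range_succ' (fun b => tw (ξ ^ b) f), hξ, pow_zero]

variable (ℓ : ℕ) [NeZero ℓ]

/-- `∏_{b < ℓ} f(ξᵇ q^{1/ℓ})`. -/
noncomputable def V (ξ : Rˣ) (f : LaurentSeries R) : LaurentSeries R := contract ℓ (prodTw ξ ℓ f)

/-- The multiplicative Hecke operator `f(q^ℓ) ∏_{b < ℓ} f(ξᵇ q^{1/ℓ})`. -/
noncomputable def Tm (ξ : Rˣ) (f : LaurentSeries R) : LaurentSeries R := qExpand R ℓ f * V ℓ ξ f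

theorem coeffMap_V (φ : R →+* S) (ξ : Rˣ) (f : LaurentSeries R) :
    coeffMap φ (V ℓ ξ f) = V ℓ (Units.map (φ : R →* S) ξ) (coeffMap φ f) := by
  rw [V, V, coeffMap_contract, coeffMap_prodTw]

theorem coeffMap_Tm (φ : R →+* S) (ξ : Rˣ) (f : LaurentSeries R) :
    coeffMap φ (Tm ℓ ξ f) = Tm ℓ (Units.map (φ : R →* S) ξ) (coeffMap φ f) := by
  rw [Tm, Tm, map_mul, coeffMap_qExpand, coeffMap_V]

end Fermat.Agent.Lib.MulHecke
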