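/-
Multiplicative Hecke operators on Laurent series (architect helper33).  TASK MH-F2.
Characteristic `ℓ`: `f ^ ℓ = (Frob f)(q^ℓ)`, hence `V ℓ 1 f = Frob f` (coefficientwise Frobenius).
-/
import Fermat.Agent.Lib.MulHecke.Basic

set_option autoImplicit false

namespace Fermat.Agent.Lib.MulHecke

open ModularCurve

variable {k : Type*} [CommRing k] (ℓ : ℕ) [Fact ℓ.Prime] [CharP k ℓ]

instance instNeZeroOfFactPrime : NeZero ℓ := ⟨(Fact.out : ℓ.Prime).ne_zero⟩

/-- freshman's dream for power series (from Mathlib's multivariate version). -/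
theorem powerSeries_pow_char (g : PowerSeries k) :
    g ^ ℓ = PowerSeries.map (frobenius k ℓ) (PowerSeries.expand ℓ (NeZero.ne ℓ) g) := by
  have : ExpChar k ℓ := ExpChar.prime Fact.out
  exact (MvPowerSeries.map_frobenius_expand ℓ (NeZero.ne ℓ) (f := g)).symm

theorem coeff_pow_char_mul (g : PowerSeries k) (m : ℕ) :
    PowerSeries.coeff (ℓ * m) (g ^ ℓ) = frobenius k ℓ (PowerSeries.coeff m g) := by
  rw [powerSeries_pow_char, PowerSeries.coeff_map, PowerSeries.coeff_expand_mul]

theorem coeff_pow_char_of_not_dvd (g : PowerSeries k) {n : ℕ} (h : ¬ ℓ ∣ n) :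
    PowerSeries.coeff n (g ^ ℓ) = 0 := by
  rw [powerSeries_pow_char, PowerSeries.coeff_map, PowerSeries.coeff_expand_of_not_dvd _ _ _ h,
    map_zero]

/-- the case of a power series -/
theorem coe_pow_char_eq (g : PowerSeries k) :
    ((g ^ ℓ : PowerSeries k) : LaurentSeries k) =
      qExpand k ℓ (coeffMap (frobenius k ℓ) (g : LaurentSeries k)) := by
  have hℓ : (0 : ℤ) < (ℓ : ℤ) := by exact_mod_cast (Fact.out : ℓ.Prime).pos
  ext n
  by_cases hn : (ℓ : ℤ) ∣ n
  · obtain ⟨m, rfl⟩ := hn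
    rw [qExpand_coeff_mul, coeffMap_coeff]
    rcases lt_or_ge m 0 with hm | hm
    · have h1 : (ℓ : ℤ) * m < 0 := mul_neg_of_pos_of_neg hℓ hm
      rw [PowerSeries.coeff_coe, if_pos h1, PowerSeries.coeff_coe, if_pos hm, map_zero]
    · obtain ⟨m', rfl⟩ := Int.eq_ofNat_of_zero_le hm
      rw [← Nat.cast_mul, LaurentSeries.coeff_coe_powerSeries, LaurentSeries.coeff_coe_powerSeries,
        coeff_pow_char_mul]
  · rw [qExpand_coeff_of_not_dvd ℓ _ hn]
    rcases lt_or_ge n 0 with hn0 | hn0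
    · rw [PowerSeries.coeff_coe, if_pos hn0]
    · obtain ⟨n', rfl⟩ := Int.eq_ofNat_of_zero_le hn0
      rw [LaurentSeries.coeff_coe_powerSeries]
      exact coeff_pow_char_of_not_dvd ℓ g (fun h => hn (Int.natCast_dvd_natCast.mpr h))

/-- freshman's dream for Laurent series. -/
theorem pow_char_eq (f : LaurentSeries k) :
    f ^ ℓ = qExpand k ℓ (coeffMap (frobenius k ℓ) f) := by
  conv_lhs => rw [← LaurentSeries.single_order_mul_powerSeriesPart f]
  conv_rhs => rw [← LaurentSeries.single_order_mul_powerSeriesPart f]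
  rw [mul_pow, map_mul, map_mul, coeffMap_single, qExpand_single, map_one (frobenius k ℓ),
    ← coe_pow_char_eq, HahnSeries.single_pow, one_pow, nsmul_eq_mul, PowerSeries.coe_pow]

theorem V_one_left (f : LaurentSeries k) : V ℓ (1 : kˣ) f = coeffMap (frobenius k ℓ) f := by
  rw [V, prodTw_one_left, pow_char_eq, contract_qExpand]

theorem Tm_one_left (f : LaurentSeries k) :
    Tm ℓ (1 : kˣ) f = qExpand k ℓ f * coeffMap (frobenius k ℓ) f := by
  rw [Tm, V_one_left]

/-- the shape used for Eichler-Shimura: `Tm (Frob f) = f ^ ℓ * Frob (Frob f)`. -/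
theorem Tm_one_left_frobenius (f : LaurentSeries k) :
    Tm ℓ (1 : kˣ) (coeffMap (frobenius k ℓ) f) =
      f ^ ℓ * coeffMap (frobenius k ℓ) (coeffMap (frobenius k ℓ) f) := by
  rw [Tm_one_left, pow_char_eq]

end Fermat.Agent.Lib.MulHecke
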