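/-
Multiplicative Hecke operators (architect helper33).  Nodes E1, E2 (finiteness), E3 of block GAL/E:
the operator `heckeF N ℓ = Norm_α ∘ β` preserves the elements whose divisor is divisible by `n`.
Everything is deduced from the norm formula of `S37/HeckeInputs` (helper105).
-/
import Fermat.Agent.GAL.E.Defs
import Fermat.Agent.S37.HeckeInputs.Main

set_option autoImplicit false

namespace Fermat.Agent.Lib.MulHecke

open ModularCurve AlgebraicCurve Fermat.Agent.S24 Fermat.Agent.GAL.E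

/-- E1: divisibility of the divisor of a norm. -/
theorem dvd_ord_norm {K F F' : Type*} [Field K] [IsAlgClosed K] [CharZero K] [Field F] [Field F']
    [Algebra K F] [Algebra K F'] [Algebra F F'] [IsScalarTower K F F'] [FF.IsFF1 K F]
    [FF.IsFF1 K F'] [Module.Finite F F'] (n : ℤ) (y : F')
    (hy : ∀ w : Place K F', n ∣ w.ord y) (v : Place K F) : n ∣ v.ord (Algebra.norm F y) := by
  rcases eq_or_ne y 0 with rfl | hy0
  · rw [Algebra.norm_zero]
    simp
  have : HasPrincipalDivisors K F' := S37.HeckeInputs.hasPrincipalDivisors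
  rw [S37.HeckeInputs.ord_norm v y hy0]
  exact Finset.dvd_sum fun w _ => hy w

section Degree
variable (N ℓ : ℕ) [NeZero N] [NeZero ℓ]

theorem finite_algAlpha : letI := algAlpha N ℓ; Module.Finite (FN N) (FN (N * ℓ)) :=
  S37.HeckeInputs.alpha_finite N ℓ

theorem heckeBetaBarIntegral : HeckeBetaBarIntegral Kbar N ℓ :=
  S37.HeckeInputs.beta_integral N ℓ

end Degree

theorem IsKum.beta {N n : ℕ} (ℓ : ℕ) [NeZero N] [NeZero ℓ] {u : FN N} (hu : IsKum N n u) :
    IsKum (N * ℓ) n (heckeBetaBar Kbar N ℓ u) := by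
  intro w
  rw [Place.ord_restrictAlong (heckeBetaBar Kbar N ℓ) (heckeBetaBarIntegral N ℓ) w u]
  exact Dvd.dvd.mul_left (hu _) _

theorem IsKum.heckeF {N n : ℕ} (ℓ : ℕ) [NeZero N] [NeZero ℓ] {u : FN N} (hu : IsKum N n u) :
    IsKum N n (heckeF N ℓ u) := by
  intro v
  letI := algAlpha N ℓ
  haveI : IsScalarTower Kbar (FN N) (FN (N * ℓ)) := isScalarTower_along (heckeAlphaBar Kbar N ℓ)
  haveI : Module.Finite (FN N) (FN (N * ℓ)) := finite_algAlpha N ℓ
  exact dvd_ord_norm (K := Kbar) (n : ℤ) (heckeBetaBar Kbar N ℓ u) (IsKum.beta ℓ hu) v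

end Fermat.Agent.Lib.MulHecke
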