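/-
Multiplicative Hecke operators (architect helper33).  TASK MH-D1 (node E2 of block GAL/E):
`[FN (N ℓ) : FN N] = ℓ + 1` for a prime `ℓ ∤ N`.
-/
import Fermat.Agent.Lib.MulHecke.Norm
import Fermat.Agent.Lib.Gamma0CountIndex

set_option autoImplicit false

namespace Fermat.Agent.Lib.MulHecke

open ModularCurve AlgebraicCurve Fermat.Agent.S24 Fermat.Agent.GAL.E

open IntermediateField in
/-- Multiplicativity of degrees in the tower `K(x) ⊆ F ⊆ F'`, where `F ⊆ F'` is given by a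
`K`-algebra homomorphism `α`. -/
theorem finrank_adjoin_mul_finrank_along {K F F' : Type*} [Field K] [Field F] [Field F']
    [Algebra K F] [Algebra K F'] (α : F →ₐ[K] F') (x : F) :
    letI := α.toRingHom.toAlgebra
    Module.finrank K⟮x⟯ F * Module.finrank F F' = Module.finrank K⟮α x⟯ F' := by
  let := α.toRingHom.toAlgebra
  let : Algebra K⟮x⟯ F' := (α.toRingHom.comp (algebraMap K⟮x⟯ F)).toAlgebra
  have : IsScalarTower K⟮x⟯ F F' := IsScalarTower.of_algebraMap_eq (fun _ => rfl)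
  rw [Module.finrank_mul_finrank K⟮x⟯ F F']
  have h : K⟮x⟯.map α = K⟮α x⟯ := by
    rw [adjoin_map, Set.image_singleton]
  refine Algebra.finrank_eq_of_equiv_equiv
    ((equivMap K⟮x⟯ α).trans (equivOfEq h)).toRingEquiv (RingEquiv.refl F') ?_
  ext y
  rfl

variable (N ℓ : ℕ) [NeZero N] [NeZero ℓ]

omit [NeZero ℓ] in
theorem index_Gamma0_mul (hℓ : ℓ.Prime) (hℓN : ¬ ℓ ∣ N) :
    (CongruenceSubgroup.Gamma0 (N * ℓ)).index =
      (ℓ + 1) * (CongruenceSubgroup.Gamma0 N).index := by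
  rw [mul_comm N ℓ, ← Gamma0Count.relIndex_of_not_dvd (NeZero.ne N) hℓ hℓN,
    Subgroup.relIndex_mul_index (Gamma0Count.Gamma0_mul_le ℓ N)]

theorem heckeAlphaBar_jF : heckeAlphaBar Kbar N ℓ (jF N) = jF (N * ℓ) :=
  Subtype.ext (coe_heckeAlphaBar N ℓ (jF N))

theorem finrank_algAlpha (hℓ : ℓ.Prime) (hℓN : ¬ ℓ ∣ N) :
    letI := algAlpha N ℓ; Module.finrank (FN N) (FN (N * ℓ)) = ℓ + 1 := by
  let := algAlpha N ℓ
  have h1 := finrank_adjoin_mul_finrank_along (heckeAlphaBar Kbar N ℓ) (jF N)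
  rw [heckeAlphaBar_jF, Export.finrank_eq_index, Export.finrank_eq_index,
    index_Gamma0_mul N ℓ hℓ hℓN, mul_comm] at h1
  have h0 : (CongruenceSubgroup.Gamma0 N).index ≠ 0 := by
    rw [← Export.finrank_eq_index]
    have := Export.finiteDimensional N
    exact Module.finrank_pos.ne'
  exact Nat.eq_of_mul_eq_mul_right (Nat.pos_of_ne_zero h0) h1

end Fermat.Agent.Lib.MulHecke
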