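/-
Multiplicative Hecke operators (architect helper33).  TASK MH-D3 (node E5 of block GAL/E):
the `ℓ` "finite" embeddings of `FN (N ℓ)` over `FN N`, realised by coset representatives
`γ_b ∈ Γ₀(N)` acting on the field `LN (N ℓ)` of S24/B.
-/
import Fermat.Agent.GAL.E.Defs
import Fermat.Agent.S24.B.Main
import Fermat.Agent.Lib.MulHecke.Basic

set_option autoImplicit false

namespace Fermat.Agent.Lib.MulHecke

open ModularCurve AlgebraicCurve Fermat.Agent.S24 Fermat.Agent.S24.B Fermat.Agent.GAL.E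
open scoped MatrixGroups

/-- the `twist` of S24/B is our `tw`. -/
theorem twist_eq_tw {C : Type*} [Field C] (ζ : Cˣ) (f : LaurentSeries C) : twist ζ f = tw ζ f :=
  rfl

variable (N ℓ : ℕ) [NeZero N] [NeZero ℓ]

set_option linter.unusedSectionVars false in
/-- Matrix identity: `diag(ℓ,1) g = δ (1 b; 0 ℓ)` with `g, δ ∈ Γ₀(N)`. -/
theorem exists_coset_rep (hℓN : Nat.Coprime ℓ N) (b : ℤ) :
    ∃ g δ : SL(2, ℤ), g ∈ CongruenceSubgroup.Gamma0 N ∧ δ ∈ CongruenceSubgroup.Gamma0 N ∧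
      (!![(ℓ : ℤ), 0; 0, 1] : Matrix (Fin 2) (Fin 2) ℤ) * g.1 = δ.1 * !![1, b; 0, (ℓ : ℤ)] := by
  obtain ⟨s, v, hsv⟩ : IsCoprime (ℓ : ℤ) (N : ℤ) := Nat.isCoprime_iff_coprime.2 hℓN
  let g : SL(2, ℤ) := ⟨!![1, b - v; (N : ℤ), N * b + s * ℓ], by
    rw [Matrix.det_fin_two_of]
    linear_combination hsv⟩
  let δ : SL(2, ℤ) := ⟨!![(ℓ : ℤ), -v; (N : ℤ), s], by
    rw [Matrix.det_fin_two_of]
    linear_combination hsv⟩
  refine ⟨g, δ, ?_, ?_, ?_⟩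
  · rw [CongruenceSubgroup.Gamma0_mem]
    show (((N : ℤ) : ℤ) : ZMod N) = 0
    simp
  · rw [CongruenceSubgroup.Gamma0_mem]
    show (((N : ℤ) : ℤ) : ZMod N) = 0
    simp
  · show (!![(ℓ : ℤ), 0; 0, 1] : Matrix (Fin 2) (Fin 2) ℤ) * !![1, b - v; (N : ℤ), N * b + s * ℓ] =
      !![(ℓ : ℤ), -v; (N : ℤ), s] * !![1, b; 0, (ℓ : ℤ)]
    ext i j
    fin_cases i <;> fin_cases j <;> simp [Matrix.mul_apply, Fin.sum_univ_two] <;> ring

/-- elements of `Γ₀(N)` fix the image of `FN N` in `LN (N ℓ)`. -/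
theorem smul_Psi_alpha (γ : SL(2, ℤ)) (hγ : γ ∈ CongruenceSubgroup.Gamma0 N) (x : FN N) :
    γ • Psi (N * ℓ) (heckeAlphaBar Kbar N ℓ x) = Psi (N * ℓ) (heckeAlphaBar Kbar N ℓ x) := by
  refine FN_induction (P := fun x => γ • Psi (N * ℓ) (heckeAlphaBar Kbar N ℓ x) =
    Psi (N * ℓ) (heckeAlphaBar Kbar N ℓ x)) ?_ ?_ ?_ ?_ ?_ ?_ x
  · intro d _ hd
    have e : heckeAlphaBar Kbar N ℓ (JF N d hd) = JF (N * ℓ) d (hd.mul_right ℓ) :=
      Subtype.ext (coe_heckeAlphaBar N ℓ _)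
    have h1 : γ⁻¹ ∈ CongruenceSubgroup.Gamma0 N := inv_mem hγ
    rw [CongruenceSubgroup.Gamma0_mem, ZMod.intCast_zmod_eq_zero_iff_dvd] at h1
    rw [e, Psi_JF, smul_algebraMap_AL,
      smul_jd_of_dvd γ d _ ((Int.natCast_dvd_natCast.mpr hd).trans h1)]
  · intro c
    rw [AlgHom.commutes, AlgHom.commutes, smul_algebraMap_Kbar]
  · intro f g hf hg
    rw [map_add, map_add, smul_add, hf, hg]
  · intro f hf
    rw [map_neg, map_neg, smul_neg, hf]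
  · intro f g hf hg
    rw [map_mul, map_mul, smul_mul', hf, hg]
  · intro f hf
    rw [map_inv₀, map_inv₀, smul_inv'', hf]

theorem coe_SL_GL (γ : SL(2, ℤ)) :
    ((γ : GL (Fin 2) ℝ) : Matrix (Fin 2) (Fin 2) ℝ) = γ.1.map (Int.cast : ℤ → ℝ) := by
  ext i j; simp

omit [NeZero N] in
/-- pointwise form of the coset identity -/
theorem jfun_dilMat_mul_smul (g δ : SL(2, ℤ)) (b : ℤ)
    (h : (!![(ℓ : ℤ), 0; 0, 1] : Matrix (Fin 2) (Fin 2) ℤ) * g.1 = δ.1 * !![1, b; 0, (ℓ : ℤ)])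
    (d : ℕ) [NeZero d] (hd : (d : ℤ) ∣ δ 1 0) (hd0 : (0 : ℤ) < d) (hℓ0 : (0 : ℤ) < ℓ)
    (τ : UpperHalfPlane) :
    jfun (dilMat (d * ℓ) • g • τ) = jfun (triMat (d : ℤ) (d * b) ℓ hd0 hℓ0 • τ) := by
  have h00 := congrFun (congrFun h 0) 0
  have h01 := congrFun (congrFun h 0) 1
  have h10 := congrFun (congrFun h 1) 0
  have h11 := congrFun (congrFun h 1) 1
  simp only [Matrix.mul_apply, Fin.sum_univ_two, Matrix.of_apply, Matrix.cons_val_zero,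
    Matrix.cons_val_one, Matrix.cons_val', Matrix.cons_val_fin_one, zero_mul, add_zero, mul_zero,
    zero_add, one_mul, mul_one] at h00 h01 h10 h11
  have r00 : (ℓ : ℝ) * (g.1 0 0 : ℝ) = (δ.1 0 0 : ℝ) := by exact_mod_cast h00
  have r01 : (ℓ : ℝ) * (g.1 0 1 : ℝ) = (δ.1 0 0 : ℝ) * b + (δ.1 0 1 : ℝ) * ℓ := by
    exact_mod_cast h01
  have r10 : (g.1 1 0 : ℝ) = (δ.1 1 0 : ℝ) := by exact_mod_cast h10
  have r11 : (g.1 1 1 : ℝ) = (δ.1 1 0 : ℝ) * b + (δ.1 1 1 : ℝ) * ℓ := by exact_mod_cast h11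
  have e1 : dilMat (d * ℓ) * (g : GL (Fin 2) ℝ) =
      dilMat d * ((δ : GL (Fin 2) ℝ) * triMat 1 b ℓ one_pos hℓ0) := by
    apply Units.ext
    rw [Units.val_mul, Units.val_mul, Units.val_mul, coe_SL_GL, coe_SL_GL, coe_triMat]
    ext i j
    fin_cases i <;> fin_cases j <;>
      simp [dilMat, Matrix.mul_apply, Fin.sum_univ_two]
    · linear_combination (d : ℝ) * r00
    · linear_combination (d : ℝ) * r01
    · exact h10
    · linear_combination r11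
  have e2 : dilMat d * triMat 1 b ℓ one_pos hℓ0 = triMat (d : ℤ) (d * b) ℓ hd0 hℓ0 := by
    apply Units.ext
    rw [Units.val_mul, coe_triMat, coe_triMat]
    ext i j
    fin_cases i <;> fin_cases j <;>
      simp [dilMat, Matrix.mul_apply, Fin.sum_univ_two]
  have s1 : dilMat (d * ℓ) • g • τ = dilMat d • δ • (triMat 1 b ℓ one_pos hℓ0 • τ) := by
    show dilMat (d * ℓ) • (g : GL (Fin 2) ℝ) • τ =
      dilMat d • (δ : GL (Fin 2) ℝ) • (triMat 1 b ℓ one_pos hℓ0 • τ)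
    rw [← mul_smul, ← mul_smul, ← mul_smul, e1, mul_assoc]
  rw [s1, jfun_dilMat_smul_smul d δ hd, ← mul_smul, e2]

/-- if `diag(ℓ,1) g = δ (1 b; 0 ℓ)` with `δ ∈ Γ₀(N)`, then `g⁻¹ • x(ℓ τ) = x((τ + b)/ℓ)`. -/
theorem texpL_smul_Psi_beta (g δ : SL(2, ℤ)) (hδ : δ ∈ CongruenceSubgroup.Gamma0 N) (b : ℕ)
    (h : (!![(ℓ : ℤ), 0; 0, 1] : Matrix (Fin 2) (Fin 2) ℤ) * g.1 = δ.1 * !![1, (b : ℤ); 0, (ℓ : ℤ)])
    (x : FN N) :
    texpL (N * ℓ) (g⁻¹ • Psi (N * ℓ) (heckeBetaBar Kbar N ℓ x)) =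
      qExpand Kbar N (twist (zetaK ℓ ^ b) (x : LaurentSeries Kbar)) := by
  refine FN_induction (P := fun x => texpL (N * ℓ) (g⁻¹ • Psi (N * ℓ) (heckeBetaBar Kbar N ℓ x)) =
      qExpand Kbar N (twist (zetaK ℓ ^ b) (x : LaurentSeries Kbar))) ?_ ?_ ?_ ?_ ?_ ?_ x
  · intro d _ hd
    have hd0 : (0 : ℤ) < d := by exact_mod_cast Nat.pos_of_ne_zero (NeZero.ne d)
    have hℓ0 : (0 : ℤ) < ℓ := by exact_mod_cast Nat.pos_of_ne_zero (NeZero.ne ℓ)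
    have e : heckeBetaBar Kbar N ℓ (JF N d hd) = JF (N * ℓ) (d * ℓ) (mul_dvd_mul_right hd ℓ) := by
      apply Subtype.ext
      show qExpand Kbar ℓ (Jser d) = Jser (d * ℓ)
      rw [Jser_eq_qExpand d, Jser_eq_qExpand (d * ℓ), qExpand_qExpand]
      exact qExpand_congr (mul_comm ℓ d) _
    have h1 : (N : ℤ) ∣ δ 1 0 := by
      rw [CongruenceSubgroup.Gamma0_mem, ZMod.intCast_zmod_eq_zero_iff_dvd] at hδ
      exact hδ
    have hdδ : (d : ℤ) ∣ δ 1 0 := (Int.natCast_dvd_natCast.mpr hd).trans h1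
    rw [e, Psi_JF, smul_algebraMap_AL, texpL_algebraMap]
    have hT := hasTExp_tri (N := N * ℓ) Stubs.hasTExp_jfun (d : ℤ) (d * b) ℓ hd0 hℓ0 (N * d)
      (by push_cast; ring) (zetaK ℓ ^ ((d : ℤ) * (b : ℤ))) (by
        rw [iota_zetaK_zpow]
        push_cast
        rfl)
    have hfun : (g⁻¹ • jd (N * ℓ) (d * ℓ) (mul_dvd_mul_right hd ℓ)).1 =
        fun τ => jfun (triMat (d : ℤ) (d * b) ℓ hd0 hℓ0 • τ) := by
      funext τ
      show jfun (dilMat (d * ℓ) • (g⁻¹)⁻¹ • τ) = _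
      rw [inv_inv]
      exact jfun_dilMat_mul_smul ℓ g δ b h d hdδ hd0 hℓ0 τ
    rw [← hfun] at hT
    rw [texp_eq hT]
    show _ = qExpand Kbar N (twist (zetaK ℓ ^ b) (Jser d))
    rw [Jser_eq_qExpand d, twist_eq_tw, twist_eq_tw, tw_qExpand, qExpand_qExpand]
    congr 2
    rw [← pow_mul, mul_comm (d : ℤ), ← Nat.cast_mul, zpow_natCast]
  · intro c
    rw [AlgHom.commutes, AlgHom.commutes, smul_algebraMap_Kbar, AlgHom.commutes]
    show _ = qExpand Kbar N (twist (zetaK ℓ ^ b) (algebraMap Kbar (LaurentSeries Kbar) c))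
    rw [algebraMap_laurentSeries_eq_single]
    show _ = qExpand Kbar N (twist (zetaK ℓ ^ b) (HahnSeries.C c))
    rw [twist_C, qExpand_C]
    rfl
  · intro f g' hf hg
    rw [map_add, map_add, smul_add, map_add, hf, hg]
    show _ = qExpand Kbar N (twist (zetaK ℓ ^ b) ((f : LaurentSeries Kbar) + g'))
    rw [map_add, map_add]
  · intro f hf
    rw [map_neg, map_neg, smul_neg, map_neg, hf]
    show _ = qExpand Kbar N (twist (zetaK ℓ ^ b) (-(f : LaurentSeries Kbar)))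
    rw [map_neg, map_neg]
  · intro f g' hf hg
    rw [map_mul, map_mul, smul_mul', map_mul, hf, hg]
    show _ = qExpand Kbar N (twist (zetaK ℓ ^ b) ((f : LaurentSeries Kbar) * g'))
    rw [map_mul, map_mul]
  · intro f hf
    rw [map_inv₀, map_inv₀, smul_inv'', map_inv₀, hf]
    show _ = qExpand Kbar N (twist (zetaK ℓ ^ b) ((f : LaurentSeries Kbar)⁻¹))
    rw [map_inv₀, map_inv₀]

/-- For every `b` there is `γ ∈ Γ₀(N)` such that `y ↦ texpL (γ • Psi y)` is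
`x(q) ↦ x(t^(N ℓ))` on `FN N` and `x(q^ℓ) ↦ x(ζ^b t^N)` on `β (FN N)`; `t = q^(1/(N ℓ))`. -/
theorem exists_gamma (hℓN : Nat.Coprime ℓ N) (b : ℕ) :
    ∃ γ : SL(2, ℤ), γ ∈ CongruenceSubgroup.Gamma0 N ∧
      (∀ x : FN N, texpL (N * ℓ) (γ • Psi (N * ℓ) (heckeAlphaBar Kbar N ℓ x)) =
        qExpand Kbar (N * ℓ) (x : LaurentSeries Kbar)) ∧
      (∀ x : FN N, texpL (N * ℓ) (γ • Psi (N * ℓ) (heckeBetaBar Kbar N ℓ x)) =
        qExpand Kbar N (twist (zetaK ℓ ^ b) (x : LaurentSeries Kbar))) := by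
  obtain ⟨g, δ, hg, hδ, h⟩ := exists_coset_rep N ℓ hℓN b
  refine ⟨g⁻¹, inv_mem hg, fun x => ?_, fun x => texpL_smul_Psi_beta N ℓ g δ hδ b h x⟩
  rw [smul_Psi_alpha N ℓ _ (inv_mem hg), texpL_Psi]
  show qExpand Kbar (N * ℓ) ((heckeAlphaBar Kbar N ℓ x : FN (N * ℓ)) : LaurentSeries Kbar) = _
  rw [coe_heckeAlphaBar]

/-- node E5, verbatim. -/
theorem exists_embedding (hℓN : Nat.Coprime ℓ N) (b : ℕ) :
    ∃ τ : FN (N * ℓ) →+* LaurentSeries Kbar,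
      (∀ x : FN N, τ (heckeAlphaBar Kbar N ℓ x) = qExpand Kbar (N * ℓ) (x : LaurentSeries Kbar)) ∧
      (∀ x : FN N, τ (heckeBetaBar Kbar N ℓ x) =
        qExpand Kbar N (twist (zetaK ℓ ^ b) (x : LaurentSeries Kbar))) := by
  obtain ⟨γ, -, h1, h2⟩ := exists_gamma N ℓ hℓN b
  refine ⟨((texpL (N * ℓ)).toRingHom.comp
    (MulSemiringAction.toRingHom SL(2, ℤ) (LN (N * ℓ)) γ)).comp (Psi (N * ℓ)).toRingHom, ?_, ?_⟩
  · intro x
    rw [RingHom.comp_apply, RingHom.comp_apply, MulSemiringAction.toRingHom_apply]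
    exact h1 x
  · intro x
    rw [RingHom.comp_apply, RingHom.comp_apply, MulSemiringAction.toRingHom_apply]
    exact h2 x

end Fermat.Agent.Lib.MulHecke
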