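/-
Multiplicative Hecke operators on Laurent series (architect helper33).  TASK MH-F1.
Over a domain `R` with a primitive `ℓ`-th root of unity `ξ`: `prodTw ξ ℓ f` is a series in `q^ℓ`,
does not depend on `ξ`, and `V`, `Tm` are multiplicative.
-/
import Fermat.Agent.Lib.MulHecke.Basic

set_option autoImplicit false
set_option linter.unusedSectionVars false

namespace Fermat.Agent.Lib.MulHecke

open ModularCurve

variable {R : Type*} [CommRing R] [IsDomain R] {ℓ : ℕ} [NeZero ℓ] {ξ η : Rˣ}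

theorem suppDvd_prodTw (hξ : IsPrimitiveRoot ξ ℓ) (f : LaurentSeries R) :
    SuppDvd ℓ (prodTw ξ ℓ f) := by
  intro k hk
  have h := congrArg (fun g : LaurentSeries R => g.coeff k) (tw_prodTw hξ.pow_eq_one f)
  simp only [tw_coeff] at h
  have h2 : (((ξ ^ k : Rˣ) : R) - 1) * (prodTw ξ ℓ f).coeff k = 0 := by
    rw [sub_mul, h, one_mul, sub_self]
  rcases mul_eq_zero.1 h2 with h3 | h3
  · exfalso
    apply hk
    rw [← hξ.zpow_eq_one_iff_dvd]
    apply Units.ext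
    rw [Units.val_one]
    exact sub_eq_zero.1 h3
  · exact h3

theorem qExpand_V (hξ : IsPrimitiveRoot ξ ℓ) (f : LaurentSeries R) :
    qExpand R ℓ (V ℓ ξ f) = prodTw ξ ℓ f :=
  (suppDvd_prodTw hξ f).qExpand_contract

/-- `prodTw` as a product over the set of powers of `ξ`. -/
theorem Root_prodTw_eq_prod_image [DecidableEq Rˣ] (hξ : IsPrimitiveRoot ξ ℓ)
    (f : LaurentSeries R) :
    prodTw ξ ℓ f = ∏ ζ ∈ (Finset.range ℓ).image (fun b => ξ ^ b), tw ζ f := by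
  rw [prodTw, Finset.prod_image]
  intro a ha b hb hab
  exact hξ.pow_inj (Finset.mem_range.1 ha) (Finset.mem_range.1 hb) hab

theorem Root_image_subset [DecidableEq Rˣ] (hξ : IsPrimitiveRoot ξ ℓ)
    (hη : IsPrimitiveRoot η ℓ) :
    (Finset.range ℓ).image (fun b => η ^ b) ⊆ (Finset.range ℓ).image (fun b => ξ ^ b) := by
  intro ζ hζ
  obtain ⟨b, -, rfl⟩ := Finset.mem_image.1 hζ
  have hξ' : IsPrimitiveRoot (ξ : R) ℓ := IsPrimitiveRoot.coe_units_iff.2 hξ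
  have h1 : ((η ^ b : Rˣ) : R) ^ ℓ = 1 := by
    rw [← Units.val_pow_eq_pow_val, ← pow_mul, mul_comm, pow_mul, hη.pow_eq_one, one_pow,
      Units.val_one]
  obtain ⟨i, hi, hi2⟩ := hξ'.eq_pow_of_pow_eq_one h1
  refine Finset.mem_image.2 ⟨i, Finset.mem_range.2 hi, ?_⟩
  apply Units.ext
  rw [Units.val_pow_eq_pow_val]
  exact hi2

/-- `prodTw` only depends on the set of `ℓ`-th roots of unity. -/
theorem prodTw_eq_of_isPrimitiveRoot (hξ : IsPrimitiveRoot ξ ℓ) (hη : IsPrimitiveRoot η ℓ)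
    (f : LaurentSeries R) : prodTw ξ ℓ f = prodTw η ℓ f := by
  classical
  rw [Root_prodTw_eq_prod_image hξ, Root_prodTw_eq_prod_image hη,
    Finset.Subset.antisymm (Root_image_subset hξ hη) (Root_image_subset hη hξ)]

theorem V_eq_of_isPrimitiveRoot (hξ : IsPrimitiveRoot ξ ℓ) (hη : IsPrimitiveRoot η ℓ)
    (f : LaurentSeries R) : V ℓ ξ f = V ℓ η f := by
  rw [V, V, prodTw_eq_of_isPrimitiveRoot hξ hη]

theorem Tm_eq_of_isPrimitiveRoot (hξ : IsPrimitiveRoot ξ ℓ) (hη : IsPrimitiveRoot η ℓ)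
    (f : LaurentSeries R) : Tm ℓ ξ f = Tm ℓ η f := by
  rw [Tm, Tm, V_eq_of_isPrimitiveRoot hξ hη]

theorem V_mul (hξ : IsPrimitiveRoot ξ ℓ) (f g : LaurentSeries R) :
    V ℓ ξ (f * g) = V ℓ ξ f * V ℓ ξ g := by
  rw [V, V, V, prodTw_mul, (suppDvd_prodTw hξ f).contract_mul (suppDvd_prodTw hξ g)]

theorem V_one (ξ : Rˣ) : V ℓ ξ (1 : LaurentSeries R) = 1 := by
  rw [V, prodTw_one, contract_one]

theorem Tm_mul (hξ : IsPrimitiveRoot ξ ℓ) (f g : LaurentSeries R) :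
    Tm ℓ ξ (f * g) = Tm ℓ ξ f * Tm ℓ ξ g := by
  rw [Tm, Tm, Tm, V_mul hξ, map_mul]
  ring

theorem Tm_one (ξ : Rˣ) : Tm ℓ ξ (1 : LaurentSeries R) = 1 := by
  rw [Tm, V_one, map_one, one_mul]

theorem Root_tw_C (ζ : Rˣ) (c : R) :
    tw ζ (HahnSeries.C c : LaurentSeries R) = HahnSeries.C c := by
  ext n
  rw [tw_coeff, HahnSeries.C_apply, HahnSeries.coeff_single]
  split_ifs with h
  · subst h; simp
  · simp

/-- constants: `Tm c = c ^ (ℓ + 1)`. -/
theorem Tm_C (ξ : Rˣ) (c : R) :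
    Tm ℓ ξ (HahnSeries.C c : LaurentSeries R) = HahnSeries.C (c ^ (ℓ + 1)) := by
  have h1 : prodTw ξ ℓ (HahnSeries.C c : LaurentSeries R) = qExpand R ℓ (HahnSeries.C (c ^ ℓ)) := by
    rw [qExpand_C, prodTw, Finset.prod_congr rfl (fun b _ => Root_tw_C (ξ ^ b) c),
      Finset.prod_const, Finset.card_range, map_pow]
  rw [Tm, V, h1, contract_qExpand, qExpand_C, ← map_mul, pow_succ']

theorem Tm_ne_zero (hξ : IsPrimitiveRoot ξ ℓ) {f : LaurentSeries R} (hf : f ≠ 0) :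
    Tm ℓ ξ f ≠ 0 := by
  have htw : ∀ ζ : Rˣ, tw ζ f ≠ 0 := by
    intro ζ h
    apply hf
    have := congrArg (tw ζ⁻¹) h
    rwa [tw_tw, inv_mul_cancel, tw_one, map_zero] at this
  have h1 : qExpand R ℓ f ≠ 0 := by
    intro h
    exact hf (qExpand_injective (R := R) ℓ (by rw [h, map_zero]))
  have h2 : V ℓ ξ f ≠ 0 := by
    intro h
    have h3 := qExpand_V hξ f
    rw [h, map_zero] at h3
    exact (Finset.prod_ne_zero_iff.2 fun b _ => htw (ξ ^ b)) h3.symm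
  exact mul_ne_zero h1 h2

end Fermat.Agent.Lib.MulHecke
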