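/-
Multiplicative Hecke operators on Laurent series (architect helper33).  TASK MH-F3.
`Tm ℓ` and `Tm ℓ'` commute for coprime `ℓ`, `ℓ'`.
-/
import Fermat.Agent.Lib.MulHecke.Root

set_option autoImplicit false

namespace Fermat.Agent.Lib.MulHecke

open ModularCurve

section General

variable {R : Type*} [CommRing R]

/-- `prodTw` of `f(q^m)`. -/
theorem prodTw_qExpand (ξ : Rˣ) (ℓ m : ℕ) [NeZero m] (f : LaurentSeries R) :
    prodTw ξ ℓ (qExpand R m f) = qExpand R m (prodTw (ξ ^ m) ℓ f) := by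
  simp only [prodTw, tw_qExpand, map_prod]
  refine Finset.prod_congr rfl ?_
  intro b _
  rw [← pow_mul, ← pow_mul, mul_comm]

theorem prodTw_prodTw_comm (ξ ξ' : Rˣ) (ℓ ℓ' : ℕ) (f : LaurentSeries R) :
    prodTw ξ ℓ (prodTw ξ' ℓ' f) = prodTw ξ' ℓ' (prodTw ξ ℓ f) := by
  simp only [prodTw, map_prod, tw_tw]
  rw [Finset.prod_comm]
  refine Finset.prod_congr rfl ?_
  intro c _
  refine Finset.prod_congr rfl ?_
  intro b _
  rw [mul_comm]

theorem qExpand_qExpand_comm (m n : ℕ) [NeZero m] [NeZero n] (f : LaurentSeries R) :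
    qExpand R m (qExpand R n f) = qExpand R n (qExpand R m f) := by
  rw [qExpand_qExpand, qExpand_qExpand]
  exact qExpand_congr (mul_comm _ _) f

end General

variable {R : Type*} [CommRing R] [IsDomain R] {ℓ ℓ' : ℕ} [NeZero ℓ] [NeZero ℓ'] {ξ ξ' : Rˣ}

/-- `prodTw ξ ℓ` commutes with `f ↦ f(q^ℓ')` for `ℓ'` prime to `ℓ`. -/
theorem prodTw_qExpand_of_coprime (h : Nat.Coprime ℓ ℓ') (hξ : IsPrimitiveRoot ξ ℓ)
    (f : LaurentSeries R) :
    prodTw ξ ℓ (qExpand R ℓ' f) = qExpand R ℓ' (prodTw ξ ℓ f) := by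
  rw [prodTw_qExpand, prodTw_eq_of_isPrimitiveRoot (hξ.pow_of_coprime ℓ' h.symm) hξ]

/-- `V ℓ` commutes with `f ↦ f(q^ℓ')`. -/
theorem V_qExpand (h : Nat.Coprime ℓ ℓ') (hξ : IsPrimitiveRoot ξ ℓ) (f : LaurentSeries R) :
    V ℓ ξ (qExpand R ℓ' f) = qExpand R ℓ' (V ℓ ξ f) := by
  apply qExpand_injective (R := R) ℓ
  rw [qExpand_V hξ, prodTw_qExpand_of_coprime h hξ, qExpand_qExpand_comm, qExpand_V hξ]

theorem V_V_comm (h : Nat.Coprime ℓ ℓ') (hξ : IsPrimitiveRoot ξ ℓ) (hξ' : IsPrimitiveRoot ξ' ℓ')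
    (f : LaurentSeries R) : V ℓ ξ (V ℓ' ξ' f) = V ℓ' ξ' (V ℓ ξ f) := by
  apply qExpand_injective (R := R) ℓ
  apply qExpand_injective (R := R) ℓ'
  rw [qExpand_V hξ, ← prodTw_qExpand_of_coprime h hξ, qExpand_V hξ',
    qExpand_qExpand_comm, qExpand_V hξ', ← prodTw_qExpand_of_coprime h.symm hξ', qExpand_V hξ,
    prodTw_prodTw_comm]

theorem Tm_comm (h : Nat.Coprime ℓ ℓ') (hξ : IsPrimitiveRoot ξ ℓ) (hξ' : IsPrimitiveRoot ξ' ℓ')
    (f : LaurentSeries R) : Tm ℓ ξ (Tm ℓ' ξ' f) = Tm ℓ' ξ' (Tm ℓ ξ f) := by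
  have e1 : qExpand R ℓ (qExpand R ℓ' f) = qExpand R ℓ' (qExpand R ℓ f) := by
    rw [qExpand_qExpand, qExpand_qExpand]
    exact qExpand_congr (mul_comm _ _) f
  rw [Tm, Tm, Tm, Tm, map_mul, map_mul, V_mul hξ, V_mul hξ', V_qExpand h hξ,
    V_qExpand h.symm hξ', V_V_comm h hξ hξ', e1]
  ring

end Fermat.Agent.Lib.MulHecke
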