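/-
Multiplicative Hecke operators (architect helper33).  TASK MH-D2 (node E4 of block GAL/E):
the norm is the product over any full set of embeddings (abstract field theory, Mathlib only).
-/
import Mathlib

set_option autoImplicit false

namespace Fermat.Agent.Lib.MulHecke

theorem algebraMap_norm_eq_prod {F E Ω ι : Type*} [Field F] [Field E] [Field Ω] [Algebra F E]
    [Algebra F Ω] [FiniteDimensional F E] [Algebra.IsSeparable F E] [Fintype ι]
    (τ : ι → E →ₐ[F] Ω) (hτ : Function.Injective τ) (hcard : Fintype.card ι = Module.finrank F E)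
    (y : E) : algebraMap F Ω (Algebra.norm F y) = ∏ i, τ i y := by
  classical
  let Ωb := AlgebraicClosure Ω
  let j : Ω →ₐ[F] Ωb := IsScalarTower.toAlgHom F Ω Ωb
  have hj : Function.Injective j := j.toRingHom.injective
  let φ : ι → (E →ₐ[F] Ωb) := fun i => j.comp (τ i)
  have hφ : Function.Injective φ := by
    intro a b hab
    apply hτ
    ext x
    apply hj
    exact DFunLike.congr_fun hab x
  have hc : Fintype.card (E →ₐ[F] Ωb) = Module.finrank F E := AlgHom.card F E Ωb
  have hbij : Function.Bijective φ :=
    (Fintype.bijective_iff_injective_and_card φ).2 ⟨hφ, by rw [hcard, hc]⟩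
  apply hj
  have h1 : j (algebraMap F Ω (Algebra.norm F y)) = algebraMap F Ωb (Algebra.norm F y) :=
    j.commutes _
  rw [h1, Algebra.norm_eq_prod_embeddings F Ωb, map_prod]
  exact (Fintype.prod_bijective φ hbij _ _ fun i => rfl).symm

end Fermat.Agent.Lib.MulHecke
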