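/-
Multiplicative Hecke operators (architect helper33).  TASK MH-D4 (node E6 of block GAL/E):
the `q`-expansion of `heckeF N ℓ u = Norm_α (β u)` is `u(q^ℓ) ∏_{b<ℓ} u(ζ^b q^{1/ℓ})`.
-/
import Fermat.Agent.Lib.MulHecke.Degree
import Fermat.Agent.Lib.MulHecke.NormProd
import Fermat.Agent.Lib.MulHecke.Embed
import Fermat.Agent.Lib.MulHecke.Root

set_option autoImplicit false

namespace Fermat.Agent.Lib.MulHecke

open ModularCurve AlgebraicCurve Fermat.Agent.S24 Fermat.Agent.S24.B Fermat.Agent.GAL.E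

/-- The norm formula of `NormProd.lean` for ring homomorphisms. -/
private theorem map_norm_eq_prod {F E Ω ι : Type*} [Field F] [Field E] [Field Ω] [Algebra F E]
    [FiniteDimensional F E] [Algebra.IsSeparable F E] [Fintype ι] (φ : F →+* Ω)
    (τ : ι → E →+* Ω) (hφ : ∀ i x, τ i (algebraMap F E x) = φ x) (hτ : Function.Injective τ)
    (hcard : Fintype.card ι = Module.finrank F E) (y : E) :
    φ (Algebra.norm F y) = ∏ i, τ i y := by
  let _ := φ.toAlgebra
  refine algebraMap_norm_eq_prod (Ω := Ω)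
    (fun i => ({ τ i with commutes' := hφ i } : E →ₐ[F] Ω)) ?_ hcard y
  intro i j hij
  apply hτ
  ext x
  exact DFunLike.congr_fun hij x

/-- `x ↦ x(t^M)`. -/
private noncomputable def expHom (M N : ℕ) [NeZero M] : FN N →+* LaurentSeries Kbar :=
  (qExpand Kbar M).comp (modularFunctionFieldBar N).val.toRingHom

private theorem expHom_apply (M N : ℕ) [NeZero M] (x : FN N) :
    expHom M N x = qExpand Kbar M (x : LaurentSeries Kbar) := rfl

/-- The `ℓ + 1` embeddings. -/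
private noncomputable def emb (N ℓ : ℕ) [NeZero N] [NeZero ℓ] (hcop : Nat.Coprime ℓ N) :
    Option (Fin ℓ) → FN (N * ℓ) →+* LaurentSeries Kbar
  | none => expHom (N * ℓ) (N * ℓ)
  | some b => (exists_embedding N ℓ hcop b).choose

private theorem emb_some_alpha (N ℓ : ℕ) [NeZero N] [NeZero ℓ] (hcop : Nat.Coprime ℓ N)
    (b : Fin ℓ) (x : FN N) : emb N ℓ hcop (some b) (heckeAlphaBar Kbar N ℓ x) =
      qExpand Kbar (N * ℓ) (x : LaurentSeries Kbar) :=
  (exists_embedding N ℓ hcop b).choose_spec.1 x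

private theorem emb_some_beta (N ℓ : ℕ) [NeZero N] [NeZero ℓ] (hcop : Nat.Coprime ℓ N)
    (b : Fin ℓ) (x : FN N) : emb N ℓ hcop (some b) (heckeBetaBar Kbar N ℓ x) =
      qExpand Kbar N (twist (zetaK ℓ ^ (b : ℕ)) (x : LaurentSeries Kbar)) :=
  (exists_embedding N ℓ hcop b).choose_spec.2 x

private theorem emb_none (N ℓ : ℕ) [NeZero N] [NeZero ℓ] (hcop : Nat.Coprime ℓ N) :
    emb N ℓ hcop none = expHom (N * ℓ) (N * ℓ) := rfl

private theorem emb_none_alpha (N ℓ : ℕ) [NeZero N] [NeZero ℓ] (hcop : Nat.Coprime ℓ N)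
    (x : FN N) : emb N ℓ hcop none (heckeAlphaBar Kbar N ℓ x) =
      qExpand Kbar (N * ℓ) (x : LaurentSeries Kbar) := by
  rw [emb_none, expHom_apply, coe_heckeAlphaBar]

private theorem emb_none_beta (N ℓ : ℕ) [NeZero N] [NeZero ℓ] (hcop : Nat.Coprime ℓ N)
    (x : FN N) : emb N ℓ hcop none (heckeBetaBar Kbar N ℓ x) =
      qExpand Kbar (N * ℓ) (qExpand Kbar ℓ (x : LaurentSeries Kbar)) := by
  rw [emb_none, expHom_apply, coe_heckeBetaBar]

private theorem coe_jF (N : ℕ) : ((jF N : FN N) : LaurentSeries Kbar) = Jser 1 := rfl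

/-- the coefficient at `-N` of the image of `j(ℓ τ)` separates the embeddings -/
private theorem emb_none_coeff (N ℓ : ℕ) [NeZero N] [NeZero ℓ] (hℓ : ℓ.Prime)
    (hcop : Nat.Coprime ℓ N) :
    (emb N ℓ hcop none (heckeBetaBar Kbar N ℓ (jF N))).coeff (-(N : ℤ)) = 0 := by
  rw [emb_none_beta]
  apply qExpand_coeff_of_not_dvd
  intro h
  rw [dvd_neg] at h
  have h2 : N * ℓ ∣ N := by exact_mod_cast h
  have h3 : N * ℓ ≤ N := Nat.le_of_dvd (Nat.pos_of_ne_zero (NeZero.ne N)) h2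
  have h4 := hℓ.two_le
  have h5 : 0 < N := Nat.pos_of_ne_zero (NeZero.ne N)
  nlinarith

private theorem emb_some_coeff (N ℓ : ℕ) [NeZero N] [NeZero ℓ]
    (hcop : Nat.Coprime ℓ N) (b : Fin ℓ) :
    (emb N ℓ hcop (some b) (heckeBetaBar Kbar N ℓ (jF N))).coeff (-(N : ℤ)) =
      (((zetaK ℓ ^ (b : ℕ))⁻¹ : Kbarˣ) : Kbar) := by
  rw [emb_some_beta, coe_jF, show (-(N : ℤ)) = (N : ℤ) * (-1) by ring, qExpand_coeff_mul,
    twist_coeff, Jser_one_coeff_neg_one, mul_one, zpow_neg_one]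

private theorem emb_injective (N ℓ : ℕ) [NeZero N] [NeZero ℓ] (hℓ : ℓ.Prime)
    (hcop : Nat.Coprime ℓ N) : Function.Injective (emb N ℓ hcop) := by
  intro i j hij
  have h : (emb N ℓ hcop i (heckeBetaBar Kbar N ℓ (jF N))).coeff (-(N : ℤ)) =
      (emb N ℓ hcop j (heckeBetaBar Kbar N ℓ (jF N))).coeff (-(N : ℤ)) := by rw [hij]
  cases i with
  | none =>
    cases j with
    | none => rfl
    | some b =>
      rw [emb_none_coeff N ℓ hℓ, emb_some_coeff] at h
      exact absurd h.symm (Units.ne_zero _)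
  | some a =>
    cases j with
    | none =>
      rw [emb_none_coeff N ℓ hℓ, emb_some_coeff] at h
      exact absurd h (Units.ne_zero _)
    | some b =>
      rw [emb_some_coeff, emb_some_coeff] at h
      have h2 : zetaK ℓ ^ (a : ℕ) = zetaK ℓ ^ (b : ℕ) := inv_injective (Units.ext h)
      have h3 := (isPrimitiveRoot_zetaK ℓ).pow_inj a.2 b.2 h2
      exact congrArg some (Fin.ext h3)

private theorem heckeF_eq_norm (N ℓ : ℕ) [NeZero N] [NeZero ℓ] (u : FN N) :
    heckeF N ℓ u = @Algebra.norm (FN N) (FN (N * ℓ)) _ _ (algAlpha N ℓ)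
      (heckeBetaBar Kbar N ℓ u) := rfl

private theorem algebraMap_algAlpha (N ℓ : ℕ) [NeZero N] [NeZero ℓ] (x : FN N) :
    @algebraMap (FN N) (FN (N * ℓ)) _ _ (algAlpha N ℓ) x = heckeAlphaBar Kbar N ℓ x := rfl

/-- The product formula at level of `t = q^(1/(N ℓ))`-expansions (norm = product over the `ℓ + 1`
embeddings of `Embed.lean` and the identity embedding). -/
theorem qExpand_mul_heckeF (N ℓ : ℕ) [NeZero N] [NeZero ℓ] (hℓ : ℓ.Prime) (hℓN : ¬ ℓ ∣ N)
    (u : FN N) :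
    qExpand Kbar (N * ℓ) ((heckeF N ℓ u : FN N) : LaurentSeries Kbar) =
      qExpand Kbar (N * ℓ) (qExpand Kbar ℓ (u : LaurentSeries Kbar)) *
        ∏ b ∈ Finset.range ℓ, qExpand Kbar N (twist (zetaK ℓ ^ b) (u : LaurentSeries Kbar)) := by
  have hcop : Nat.Coprime ℓ N := (Nat.Prime.coprime_iff_not_dvd hℓ).2 hℓN
  let _ := algAlpha N ℓ
  have : Module.Finite (FN N) (FN (N * ℓ)) := finite_algAlpha N ℓ
  have key := map_norm_eq_prod (expHom (N * ℓ) N) (emb N ℓ hcop) (by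
    intro i x
    rw [algebraMap_algAlpha, expHom_apply]
    cases i with
    | none => exact emb_none_alpha N ℓ hcop x
    | some b => exact emb_some_alpha N ℓ hcop b x) (emb_injective N ℓ hℓ hcop)
    (by rw [finrank_algAlpha N ℓ hℓ hℓN]; simp) (heckeBetaBar Kbar N ℓ u)
  rw [← heckeF_eq_norm, expHom_apply, Fintype.prod_option, emb_none_beta] at key
  rw [key]
  congr 1
  rw [← Fin.prod_univ_eq_prod_range
    (fun b => qExpand Kbar N (twist (zetaK ℓ ^ b) (u : LaurentSeries Kbar))) ℓ]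
  exact Finset.prod_congr rfl fun b _ => emb_some_beta N ℓ hcop b u

/-- node E6, verbatim. -/
theorem qExpand_heckeF (N ℓ : ℕ) [NeZero N] [NeZero ℓ] (hℓ : ℓ.Prime) (hℓN : ¬ ℓ ∣ N) (u : FN N) :
    qExpand Kbar ℓ ((heckeF N ℓ u : FN N) : LaurentSeries Kbar) =
      qExpand Kbar (ℓ * ℓ) (u : LaurentSeries Kbar) *
        ∏ b ∈ Finset.range ℓ, twist (zetaK ℓ ^ b) (u : LaurentSeries Kbar) := by
  apply qExpand_injective (R := Kbar) N
  rw [qExpand_qExpand, qExpand_mul_heckeF N ℓ hℓ hℓN u, map_mul, map_prod, qExpand_qExpand,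
    qExpand_qExpand]
  congr 1
  exact qExpand_congr (mul_assoc N ℓ ℓ) _

/-- The `q`-expansion of the Hecke operator is the formal operator `Tm` of `Basic.lean`, for any
primitive `ℓ`-th root of unity. -/
theorem coe_heckeF (N ℓ : ℕ) [NeZero N] [NeZero ℓ] (hℓ : ℓ.Prime) (hℓN : ¬ ℓ ∣ N) (ζ : Kbarˣ)
    (hζ : IsPrimitiveRoot ζ ℓ) (u : FN N) :
    ((heckeF N ℓ u : FN N) : LaurentSeries Kbar) = Tm ℓ ζ (u : LaurentSeries Kbar) := by
  apply qExpand_injective (R := Kbar) ℓ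
  rw [qExpand_heckeF N ℓ hℓ hℓN u, Tm, map_mul, qExpand_qExpand, qExpand_V hζ,
    prodTw_eq_of_isPrimitiveRoot hζ (isPrimitiveRoot_zetaK ℓ)]
  rfl

theorem heckeF_algebraMap (N ℓ : ℕ) [NeZero N] [NeZero ℓ] (hℓ : ℓ.Prime) (hℓN : ¬ ℓ ∣ N)
    (c : Kbar) : heckeF N ℓ (algebraMap Kbar (FN N) c) = algebraMap Kbar (FN N) (c ^ (ℓ + 1)) := by
  have hC : ∀ d : Kbar, ((algebraMap Kbar (FN N) d : FN N) : LaurentSeries Kbar) =
      HahnSeries.C d := by
    intro d
    show algebraMap Kbar (LaurentSeries Kbar) d = HahnSeries.C d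
    rw [algebraMap_laurentSeries_eq_single]
    rfl
  apply Subtype.ext
  rw [coe_heckeF N ℓ hℓ hℓN (zetaK ℓ) (isPrimitiveRoot_zetaK ℓ), hC, hC, Tm_C]

end Fermat.Agent.Lib.MulHecke
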