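/-
Multiplicative Hecke operators (architect helper33).  TASK MH-D5 (node E7 of block GAL/E and the
commutation of the Hecke operators), from `coe_heckeF` and the formal identities.
-/
import Fermat.Agent.Lib.MulHecke.QExp
import Fermat.Agent.Lib.MulHecke.Comm

set_option autoImplicit false

namespace Fermat.Agent.Lib.MulHecke

open ModularCurve AlgebraicCurve Fermat.Agent.S24 Fermat.Agent.S24.B Fermat.Agent.GAL.E

/-- node E7, verbatim: Galois commutes with Hecke. -/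
theorem galF_heckeF (N ℓ : ℕ) [NeZero N] [NeZero ℓ] (hℓ : ℓ.Prime) (hℓN : ¬ ℓ ∣ N) (σ : GQ)
    (u : FN N) : galF N σ (heckeF N ℓ u) = heckeF N ℓ (galF N σ u) := by
  have hζ : IsPrimitiveRoot (zetaK ℓ) ℓ := isPrimitiveRoot_zetaK ℓ
  have hinj : Function.Injective
      (Units.map (((σ : Kbar →+* Kbar)) : Kbar →* Kbar)) :=
    Units.map_injective (f := (((σ : Kbar →+* Kbar)) : Kbar →* Kbar)) σ.injective
  have hζ' : IsPrimitiveRoot (Units.map (((σ : Kbar →+* Kbar)) : Kbar →* Kbar) (zetaK ℓ)) ℓ :=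
    hζ.map_of_injective hinj
  apply Subtype.ext
  rw [coe_galF, coe_heckeF N ℓ hℓ hℓN _ hζ, coe_heckeF N ℓ hℓ hℓN _ hζ', coe_galF, coeffMap_Tm]

/-- The Hecke operators commute. -/
theorem heckeF_comm (N ℓ ℓ' : ℕ) [NeZero N] [NeZero ℓ] [NeZero ℓ'] (hℓ : ℓ.Prime) (hℓN : ¬ ℓ ∣ N)
    (hℓ' : ℓ'.Prime) (hℓ'N : ¬ ℓ' ∣ N) (u : FN N) :
    heckeF N ℓ (heckeF N ℓ' u) = heckeF N ℓ' (heckeF N ℓ u) := by
  rcases eq_or_ne ℓ ℓ' with rfl | hne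
  · rfl
  have hcop : Nat.Coprime ℓ ℓ' := (Nat.coprime_primes hℓ hℓ').2 hne
  have hζ : IsPrimitiveRoot (zetaK ℓ) ℓ := isPrimitiveRoot_zetaK ℓ
  have hζ' : IsPrimitiveRoot (zetaK ℓ') ℓ' := isPrimitiveRoot_zetaK ℓ'
  apply Subtype.ext
  rw [coe_heckeF N ℓ hℓ hℓN _ hζ, coe_heckeF N ℓ' hℓ' hℓ'N _ hζ', coe_heckeF N ℓ' hℓ' hℓ'N _ hζ',
    coe_heckeF N ℓ hℓ hℓN _ hζ, Tm_comm hcop hζ hζ']

end Fermat.Agent.Lib.MulHecke
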